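/-
P-ES / ES-A / PL-1 (helper33): germ embedding of the function field `FC N` of `X₀(N)` over `ℂ`
at an arbitrary point `z₀` of the upper half plane, into the field of meromorphic germs at `z₀`,
with the order valuation.
-/
import Fermat.Agent.H23.EsA.DatumC
import Fermat.Agent.H33.MerGermCore

set_option autoImplicit false

noncomputable section

open Filter Topology UpperHalfPlane
open scoped MatrixGroups Manifold

namespace Fermat.Agent.H33.EsAPoint

open Fermat.Agent.H23.EsA Fermat.Agent.H44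

/-- A holomorphic function on `ℍ`, extended by `ofComplex`, is analytic at points of `ℍ`. -/
lemma analyticAt_comp_ofComplex {h : ℍ → ℂ} (hh : MDiff h) (z₀ : ℍ) :
    AnalyticAt ℂ (h ∘ ofComplex) (z₀ : ℂ) :=
  ((UpperHalfPlane.mdifferentiable_iff.1 hh).analyticOnNhd isOpen_upperHalfPlaneSet) _ z₀.im_pos

lemma meromorphicAt_comp_ofComplex {h : ℍ → ℂ} (hh : MDiff h) (z₀ : ℍ) :
    MeromorphicAt (h ∘ ofComplex) (z₀ : ℂ) :=
  (analyticAt_comp_ofComplex hh z₀).meromorphicAt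

/-- Identity theorem on `ℍ`: a holomorphic function whose germ at `z₀` vanishes is zero. -/
lemma eq_zero_of_eventually_eq_zero {h : ℍ → ℂ} (hh : MDiff h) (z₀ : ℍ)
    (h0 : (h ∘ ofComplex) =ᶠ[𝓝[≠] (z₀ : ℂ)] (fun _ => (0 : ℂ))) : h = 0 := by
  have han : AnalyticOnNhd ℂ (h ∘ ofComplex) {z : ℂ | 0 < z.im} :=
    (UpperHalfPlane.mdifferentiable_iff.1 hh).analyticOnNhd isOpen_upperHalfPlaneSet
  have hpre : IsPreconnected {z : ℂ | 0 < z.im} :=
    (convex_halfSpace_im_gt 0).isPreconnected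
  have hfreq : ∃ᶠ z in 𝓝[≠] (z₀ : ℂ), (h ∘ ofComplex) z = 0 := h0.frequently
  have key := han.eqOn_zero_of_preconnected_of_frequently_eq_zero hpre z₀.im_pos hfreq
  funext z
  have hz := key z.im_pos
  simpa using hz

/-- The ring homomorphism from `RsubC N` to Laurent series. -/
def rsubToLaurent (N : ℕ) [NeZero N] : ↥(RsubC N) →+* LaurentSeries ℂ :=
  (algebraMap ↥(FC N) (LaurentSeries ℂ)).comp (algebraMap ↥(RsubC N) ↥(FC N))

lemma rsubToLaurent_apply (N : ℕ) [NeZero N] (r : ↥(RsubC N)) :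
    rsubToLaurent N r = ((r : ↥(FC N)) : LaurentSeries ℂ) := rfl

/-- The data: a ring homomorphism from `RsubC N` to functions on `ℍ` representing the elements. -/
lemma exists_theta (N : ℕ) [NeZero N] (hR : RsubRepStatement N) :
    ∃ Θ : ↥(RsubC N) →+* (ℍ → ℂ), ∀ r : ↥(RsubC N), Rep N (Θ r) (r : ↥(FC N)) := by
  have h := gen11_exists_lift (rsubToLaurent N) (fun r => by
    obtain ⟨h, hh, -⟩ := hR (r : ↥(FC N)) r.2
    exact ⟨h, hh⟩)
  obtain ⟨Θ, hΘ⟩ := h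
  exact ⟨Θ, fun r => hΘ r⟩

section Construction

variable {N : ℕ} [NeZero N] (Θ : ↥(RsubC N) →+* (ℍ → ℂ))
  (hΘ : ∀ r : ↥(RsubC N), Rep N (Θ r) (r : ↥(FC N))) (z₀ : ℍ)

include hΘ in
lemma theta_mdiff (r : ↥(RsubC N)) : MDiff (Θ r) := (hΘ r).mdifferentiable

include hΘ in
lemma theta_mer (r : ↥(RsubC N)) : MeromorphicAt (Θ r ∘ ofComplex) (z₀ : ℂ) :=
  meromorphicAt_comp_ofComplex (theta_mdiff Θ hΘ r) z₀

/-- The germ map on `RsubC N`. -/
def germHom : ↥(RsubC N) →+* MerGerm (z₀ : ℂ) where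
  toFun r := merGerm (z₀ : ℂ) (Θ r ∘ ofComplex)
  map_one' := by
    rw [map_one]
    exact merGerm_one _
  map_zero' := by
    rw [map_zero]
    exact merGerm_zero _
  map_mul' := by
    intro a b
    rw [map_mul, ← merGerm_mul _ _ _ (theta_mer Θ hΘ z₀ a) (theta_mer Θ hΘ z₀ b)]
    rfl
  map_add' := by
    intro a b
    rw [map_add, ← merGerm_add _ _ _ (theta_mer Θ hΘ z₀ a) (theta_mer Θ hΘ z₀ b)]
    rfl

lemma germHom_apply (r : ↥(RsubC N)) :
    germHom Θ hΘ z₀ r = merGerm (z₀ : ℂ) (Θ r ∘ ofComplex) := rfl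

lemma germHom_injective : Function.Injective (germHom Θ hΘ z₀) := by
  rw [injective_iff_map_eq_zero]
  intro r hr
  rw [germHom_apply, ← merGerm_zero] at hr
  have h0 := (merGerm_eq_iff _ _ _ (theta_mer Θ hΘ z₀ r) (MeromorphicAt.const 0 _)).1 hr
  have hz : Θ r = 0 := eq_zero_of_eventually_eq_zero (theta_mdiff Θ hΘ r) z₀ h0
  have h1 : Rep N (0 : ℍ → ℂ) (r : ↥(FC N)) := hz ▸ hΘ r
  have h2 : ((r : ↥(FC N)) : LaurentSeries ℂ) = 0 :=
    LaurentRel.unique_right h1 laurentRel_zero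
  exact Subtype.ext (Subtype.ext h2)

include hΘ in
/-- Representing functions are unique. -/
lemma theta_eq_of_rep (r : ↥(RsubC N)) {h : ℍ → ℂ} (hr : Rep N h (r : ↥(FC N))) : Θ r = h :=
  LaurentRel.unique_left (hΘ r) hr

include hΘ in
lemma theta_const (c : ℂ) : Θ (algebraMap ℂ ↥(RsubC N) c) = fun _ => c := by
  apply theta_eq_of_rep Θ hΘ
  have h := laurentRel_const c
  have e : (((algebraMap ℂ ↥(RsubC N) c : ↥(RsubC N)) : ↥(FC N)) : LaurentSeries ℂ)
      = HahnSeries.C c := by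
    have e1 : (((algebraMap ℂ ↥(RsubC N) c : ↥(RsubC N)) : ↥(FC N)) : LaurentSeries ℂ)
        = algebraMap ℂ (LaurentSeries ℂ) c := rfl
    have h1 : algebraMap ℂ (PowerSeries ℂ) c = PowerSeries.C c := by simp
    rw [e1, HahnSeries.algebraMap_apply', h1, HahnSeries.ofPowerSeries_C]
  unfold Fermat.Agent.H23.EsA.Rep
  rw [e]
  exact h

end Construction

instance instFaithfulRsubC (N : ℕ) [NeZero N] : FaithfulSMul ↥(RsubC N) ↥(FC N) :=
  inferInstance

lemma isFractionRing_rsubC (N : ℕ) [NeZero N] (hC : CoreCStatement N) :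
    IsFractionRing ↥(RsubC N) ↥(FC N) := by
  apply IsFractionRing.of_field
  intro f
  obtain ⟨r, s, hr, hs, hs0, hfs⟩ := hC.2 f
  refine ⟨⟨r, hr⟩, ⟨s, hs⟩, ?_⟩
  change f = r / s
  rw [eq_div_iff hs0]
  exact hfs

/-- **PL-1**: the germ embedding at an arbitrary point of `ℍ`. -/
theorem pointEmbedding (N : ℕ) [NeZero N] (hC : CoreCStatement N) (hR : RsubRepStatement N) :
    PointEmbeddingStatement N := by
  intro z₀
  obtain ⟨Θ, hΘ⟩ := exists_theta N hR
  have : IsFractionRing ↥(RsubC N) ↥(FC N) := isFractionRing_rsubC N hC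
  have hinj := germHom_injective Θ hΘ z₀
  let σ : ↥(FC N) →+* MerGerm (z₀ : ℂ) := IsFractionRing.lift hinj
  have hσ : ∀ r : ↥(RsubC N), σ (r : ↥(FC N)) = germHom Θ hΘ z₀ r := fun r =>
    IsFractionRing.lift_algebraMap hinj r
  refine ⟨MerGerm (z₀ : ℂ), inferInstance, merVal (z₀ : ℂ), σ, ?_, ?_⟩
  · intro c hc
    have h1 : algebraMap ℂ ↥(FC N) c = ((algebraMap ℂ ↥(RsubC N) c : ↥(RsubC N)) : ↥(FC N)) := rfl
    rw [h1, hσ, germHom_apply, theta_const Θ hΘ c]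
    have h2 : ((fun _ : ℍ => c) ∘ ofComplex) = fun _ : ℂ => c := rfl
    rw [h2, merVal_germ _ _ (MeromorphicAt.const c _)]
    classical
    rw [meromorphicOrderAt_const, if_neg hc]
  · intro f h hf hrep
    obtain ⟨r, s, hr, hs, hs0, hfs⟩ := hC.2 f
    have hmd : MDiff h := LaurentRel.mdifferentiable hrep
    have hmer := meromorphicAt_comp_ofComplex hmd z₀
    -- `h * Θ s` represents `r`
    have hrep2 : Rep N (h * Θ ⟨s, hs⟩) r := by
      have := LaurentRel.mul hrep (hΘ ⟨s, hs⟩)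
      have e : ((r : ↥(FC N)) : LaurentSeries ℂ) = (f : LaurentSeries ℂ) * (s : LaurentSeries ℂ) := by
        rw [← hfs]; rfl
      unfold Fermat.Agent.H23.EsA.Rep
      rw [e]
      exact this
    have hΘr : Θ ⟨r, hr⟩ = h * Θ ⟨s, hs⟩ := theta_eq_of_rep Θ hΘ ⟨r, hr⟩ hrep2
    have hs' : germHom Θ hΘ z₀ ⟨s, hs⟩ ≠ 0 := by
      intro h0
      have := hinj (h0.trans (map_zero _).symm)
      exact hs0 (congrArg Subtype.val this)
    have hσf : σ f * germHom Θ hΘ z₀ ⟨s, hs⟩ = merGerm (z₀ : ℂ) (h ∘ ofComplex) *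
        germHom Θ hΘ z₀ ⟨s, hs⟩ := by
      rw [← hσ ⟨s, hs⟩, ← map_mul]
      have e1 : f * ((⟨s, hs⟩ : ↥(RsubC N)) : ↥(FC N)) = ((⟨r, hr⟩ : ↥(RsubC N)) : ↥(FC N)) := hfs
      rw [e1, hσ, hσ, germHom_apply, germHom_apply, hΘr,
        ← merGerm_mul _ _ _ hmer (theta_mer Θ hΘ z₀ ⟨s, hs⟩)]
      rfl
    have hσf' : σ f = merGerm (z₀ : ℂ) (h ∘ ofComplex) := mul_right_cancel₀ hs' hσf
    rw [hσf', merVal_germ _ _ hmer]

end Fermat.Agent.H33.EsAPoint

end
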